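/-
S41 / C8 [PD-COMM] — abstract core of the CUSP-SUM FORMULA (helper22).

Setting (helper84's conventions): a group `G` acting on a set `Ω`, `M = Ω → R` (`R` a commutative
ring) with `act g m ω = m (g⁻¹ • ω)`, crossed homs `z : G → M`, and "primitives" `K : G → M` of the
cup product of two crossed homs: `K (g h) = K g + g.(K h) - (z g) * g.(z' h)` (i.e. `dK = z ∪ z'`).
`Γ` is the stabiliser of a base point `ω₀`, `ev z : Γ → R` is evaluation at `ω₀` (Shapiro).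

* `IsPrim.map_pow`, `IsPrim.conj_apply` : behaviour of `K` on powers / conjugates of an element `τ`
  on which both crossed homs vanish;
* `CuspSys` : the `τ`-orbits ("cusps") on `Ω` with base points and widths; `CuspSys.γ` the
  corresponding generators `h τ^w h⁻¹ ∈ Γ`;
* `cuspSum_prim` : `∑ over cusps of K (γ_c) ω₀ = ∑ ω, K τ ω`;
* `cuspSum_eq` : the same for EVERY `κ : Γ → R` with `κ (γ δ) = κ γ + κ δ - φ γ * ψ δ`
  (`φ = ev z`, `ψ = ev z'`), when `G` is generated by elements of finite order and `R` is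
  torsion-free;
* `form_comp_iso` : hence `∑ ω, K τ ω` only depends on the abstract group `Γ`, the homs `φ ψ` and the
  conjugacy classes of the cusp generators.
-/
import Mathlib

set_option autoImplicit false
set_option linter.unusedSectionVars false

namespace Fermat.Agent.S41.CuspSum22

open Finset

variable {G : Type*} [Group G] {Ω : Type*} [MulAction G Ω] {R : Type*} [CommRing R]

/-- the action of `G` on `R`-valued functions on `Ω`. -/
def act (g : G) (m : Ω → R) : Ω → R := fun ω => m (g⁻¹ • ω)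

@[simp] theorem act_apply (g : G) (m : Ω → R) (ω : Ω) : act g m ω = m (g⁻¹ • ω) := rfl

theorem act_one (m : Ω → R) : act (1 : G) m = m := by
  funext ω; simp [act]

theorem act_mul (g h : G) (m : Ω → R) : act (g * h) m = act g (act h m) := by
  funext ω; simp [act, mul_smul]

theorem act_add (g : G) (m m' : Ω → R) : act g (m + m') = act g m + act g m' := rfl

theorem act_zero (g : G) : act g (0 : Ω → R) = 0 := rfl

theorem act_neg (g : G) (m : Ω → R) : act g (-m) = -act g m := rfl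

theorem act_sub (g : G) (m m' : Ω → R) : act g (m - m') = act g m - act g m' := rfl

theorem act_mulf (g : G) (m m' : Ω → R) : act g (m * m') = act g m * act g m' := rfl

/-- the total sum is invariant under the action. -/
theorem sum_act [Fintype Ω] (g : G) (m : Ω → R) : ∑ ω, act g m ω = ∑ ω, m ω := by
  simp only [act_apply]
  exact Equiv.sum_comp (MulAction.toPerm g⁻¹) m

/-- crossed homomorphisms `G → (Ω → R)`. -/
def IsCoc (z : G → Ω → R) : Prop := ∀ g h, z (g * h) = z g + act g (z h)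

/-- `K` is a primitive of the cup product of the crossed homs `z`, `z'`: `dK = z ∪ z'`. -/
def IsPrim (z z' K : G → Ω → R) : Prop :=
  ∀ g h, K (g * h) = K g + act g (K h) - z g * act g (z' h)

theorem IsCoc.map_one {z : G → Ω → R} (hz : IsCoc z) : z 1 = 0 := by
  have h := hz 1 1
  rw [mul_one, act_one] at h
  have : z 1 + 0 = z 1 + z 1 := by rw [add_zero]; exact h
  exact (add_left_cancel this).symm

theorem IsCoc.isPrim_zero {c : G → Ω → R} (hc : IsCoc c) :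
    IsPrim (0 : G → Ω → R) (0 : G → Ω → R) c := by
  intro g h
  rw [hc g h]
  simp

theorem isCoc_zero : IsCoc (0 : G → Ω → R) := by
  intro g h
  simp [act_zero]

theorem IsCoc.map_pow_eq_zero {z : G → Ω → R} (hz : IsCoc z) {τ : G} (hτ : z τ = 0) (n : ℕ) :
    z (τ ^ n) = 0 := by
  induction n with
  | zero => simpa using hz.map_one
  | succ n ih => rw [pow_succ, hz, ih, hτ, act_zero, add_zero]

theorem IsPrim.map_one {z z' K : G → Ω → R} (hK : IsPrim z z' K) (hz : IsCoc z) : K 1 = 0 := by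
  have h := hK 1 1
  rw [mul_one, act_one, act_one, hz.map_one, zero_mul, sub_zero] at h
  have : K 1 + 0 = K 1 + K 1 := by rw [add_zero]; exact h
  exact (add_left_cancel this).symm

theorem IsPrim.map_pow {z z' K : G → Ω → R} (hK : IsPrim z z' K) (hz : IsCoc z) {τ : G}
    (hτ : z τ = 0) (n : ℕ) : K (τ ^ n) = ∑ k ∈ range n, act (τ ^ k) (K τ) := by
  induction n with
  | zero => simpa using hK.map_one hz
  | succ n ih =>
    rw [pow_succ, hK, ih, hz.map_pow_eq_zero hτ, zero_mul, sub_zero, Finset.sum_range_succ]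

/-- conjugation: the value at `ω₀` of `K (h g h⁻¹)` is the value of `K g` at `h⁻¹ ω₀`. -/
theorem IsPrim.conj_apply {z z' K : G → Ω → R} (hK : IsPrim z z' K) (hz : IsCoc z)
    (hz' : IsCoc z') {g : G} (hg : z g = 0) (hg' : z' g = 0) (h : G) (ω₀ : Ω)
    (hfix : g • (h⁻¹ • ω₀) = h⁻¹ • ω₀) :
    K (h * g * h⁻¹) ω₀ = K g (h⁻¹ • ω₀) := by
  have hfix' : g⁻¹ • (h⁻¹ • ω₀) = h⁻¹ • ω₀ := by
    rw [inv_smul_eq_iff, hfix]
  have h1 : K (g * h⁻¹) = K g + act g (K h⁻¹) := by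
    rw [hK, hg, zero_mul, sub_zero]
  have h2 : z' (g * h⁻¹) = act g (z' h⁻¹) := by
    rw [hz', hg', zero_add]
  have h3 : K (h * g * h⁻¹) = K h + act h (K g + act g (K h⁻¹)) - z h * act h (act g (z' h⁻¹)) := by
    rw [mul_assoc, hK, h1, h2]
  have h4 : K h + act h (K h⁻¹) - z h * act h (z' h⁻¹) = 0 := by
    rw [← hK, mul_inv_cancel, hK.map_one hz]
  have h5 := congrFun h4 ω₀
  rw [h3]
  simp only [Pi.add_apply, Pi.sub_apply, Pi.mul_apply, act_apply, Pi.zero_apply] at h5 ⊢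
  rw [hfix']
  linear_combination h5

/-! ### Evaluation at the base point (Shapiro) -/

section Ev

variable (ω₀ : Ω)

/-- evaluation at the base point of a cochain restricted to the stabiliser. -/
def ev (z : G → Ω → R) : MulAction.stabilizer G ω₀ → R := fun γ => z (γ : G) ω₀

variable {ω₀}

theorem ev_apply (z : G → Ω → R) (γ : MulAction.stabilizer G ω₀) : ev ω₀ z γ = z (γ : G) ω₀ := rfl

theorem inv_smul_base (γ : MulAction.stabilizer G ω₀) : (γ : G)⁻¹ • ω₀ = ω₀ := by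
  rw [inv_smul_eq_iff]; exact (MulAction.mem_stabilizer_iff.mp γ.2).symm

theorem ev_mul {z : G → Ω → R} (hz : IsCoc z) (γ δ : MulAction.stabilizer G ω₀) :
    ev ω₀ z (γ * δ) = ev ω₀ z γ + ev ω₀ z δ := by
  simp only [ev_apply, Subgroup.coe_mul, hz (γ : G) (δ : G), Pi.add_apply, act_apply,
    inv_smul_base]

/-- `κ` is a primitive of `φ ∪ ψ` on the group `Γ`. -/
def IsKappa {Γ : Type*} [Group Γ] (φ ψ κ : Γ → R) : Prop :=
  ∀ γ δ, κ (γ * δ) = κ γ + κ δ - φ γ * ψ δ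

theorem isKappa_ev {z z' K : G → Ω → R} (hK : IsPrim z z' K) :
    IsKappa (ev ω₀ z) (ev ω₀ z') (ev ω₀ K) := by
  intro γ δ
  simp only [ev_apply, Subgroup.coe_mul, hK (γ : G) (δ : G), Pi.add_apply, Pi.sub_apply,
    Pi.mul_apply, act_apply, inv_smul_base]

end Ev

section Kappa

variable {Γ : Type*} [Group Γ] {φ ψ κ κ' : Γ → R}

theorem IsKappa.sub_hom (h : IsKappa φ ψ κ) (h' : IsKappa φ ψ κ') (γ δ : Γ) :
    (κ - κ') (γ * δ) = (κ - κ') γ + (κ - κ') δ := by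
  simp only [Pi.sub_apply, h γ δ, h' γ δ]; ring

theorem IsKappa.map_one (hφ : φ 1 = 0) (h : IsKappa φ ψ κ) : κ 1 = 0 := by
  have := h 1 1
  rw [mul_one, hφ, zero_mul, sub_zero] at this
  have h2 : κ 1 + 0 = κ 1 + κ 1 := by rw [add_zero]; exact this
  exact (add_left_cancel h2).symm

/-- `κ` is invariant under conjugation on elements killed by `φ` and `ψ`. -/
theorem IsKappa.conj (hφ : ∀ γ δ, φ (γ * δ) = φ γ + φ δ) (hψ : ∀ γ δ, ψ (γ * δ) = ψ γ + ψ δ)
    (h : IsKappa φ ψ κ) {γ : Γ} (hγφ : φ γ = 0) (hγψ : ψ γ = 0) (δ : Γ) :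
    κ (δ * γ * δ⁻¹) = κ γ := by
  have hφ1 : φ 1 = 0 := by
    have := hφ 1 1; rw [mul_one] at this
    have h2 : φ 1 + 0 = φ 1 + φ 1 := by rw [add_zero]; exact this
    exact (add_left_cancel h2).symm
  have hψ1 : ψ 1 = 0 := by
    have := hψ 1 1; rw [mul_one] at this
    have h2 : ψ 1 + 0 = ψ 1 + ψ 1 := by rw [add_zero]; exact this
    exact (add_left_cancel h2).symm
  have hψinv : ψ δ⁻¹ = -ψ δ := by
    have := hψ δ δ⁻¹; rw [mul_inv_cancel, hψ1] at this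
    linear_combination -this
  have h1 : κ (δ * γ * δ⁻¹) = κ δ + κ (γ * δ⁻¹) - φ δ * ψ (γ * δ⁻¹) := by
    rw [mul_assoc, h]
  have h2 : κ (γ * δ⁻¹) = κ γ + κ δ⁻¹ := by rw [h, hγφ, zero_mul, sub_zero]
  have h3 : ψ (γ * δ⁻¹) = ψ δ⁻¹ := by rw [hψ, hγψ, zero_add]
  have h4 : κ δ + κ δ⁻¹ - φ δ * ψ δ⁻¹ = 0 := by
    rw [← h, mul_inv_cancel, h.map_one hφ1]
  rw [h1, h2, h3]
  linear_combination h4

end Kappa

/-! ### Cusp systems and the cusp sum -/

/-- the `τ`-orbits on `Ω` ("cusps") with base points `(h i)⁻¹ ω₀` and widths `w i`. -/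
structure CuspSys (τ : G) (ω₀ : Ω) where
  /-- the index set (the cusps) -/
  I : Type*
  /-- finitely many cusps -/
  [fI : Fintype I]
  /-- `(h i)⁻¹ ω₀` is the base point of the `i`-th orbit -/
  h : I → G
  /-- the width of the `i`-th orbit -/
  w : I → ℕ
  /-- `τ ^ w` fixes the base point -/
  fix : ∀ i, τ ^ (w i) • ((h i)⁻¹ • ω₀) = (h i)⁻¹ • ω₀
  /-- enumeration of `Ω` by the orbits -/
  e : (Σ i : I, Fin (w i)) ≃ Ω
  /-- the enumeration is by powers of `τ⁻¹` -/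
  he : ∀ (i : I) (k : Fin (w i)), e ⟨i, k⟩ = (τ ^ (k : ℕ))⁻¹ • ((h i)⁻¹ • ω₀)

attribute [instance] CuspSys.fI

namespace CuspSys

variable {τ : G} {ω₀ : Ω} (C : CuspSys τ ω₀)

/-- the generator `h τ^w h⁻¹` of the stabiliser of the `i`-th cusp, as an element of `Γ`. -/
def γ (i : C.I) : MulAction.stabilizer G ω₀ :=
  ⟨C.h i * τ ^ (C.w i) * (C.h i)⁻¹, by
    rw [MulAction.mem_stabilizer_iff, mul_smul, mul_smul, C.fix i, smul_inv_smul]⟩

@[simp] theorem coe_γ (i : C.I) : ((C.γ i : MulAction.stabilizer G ω₀) : G) =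
    C.h i * τ ^ (C.w i) * (C.h i)⁻¹ := rfl

end CuspSys

/-- **cusp sum of a primitive**: the sum over the cusps of the values `K (γ_c) ω₀` is the total sum
of `K τ`. -/
theorem cuspSum_prim [Fintype Ω] {τ : G} {ω₀ : Ω} (C : CuspSys τ ω₀) {z z' K : G → Ω → R}
    (hK : IsPrim z z' K) (hz : IsCoc z) (hz' : IsCoc z') (hτ : z τ = 0) (hτ' : z' τ = 0) :
    ∑ i, ev ω₀ K (C.γ i) = ∑ ω, K τ ω := by
  have h1 : ∀ i, ev ω₀ K (C.γ i) = ∑ k : Fin (C.w i), K τ (C.e ⟨i, k⟩) := by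
    intro i
    rw [ev_apply, CuspSys.coe_γ,
      hK.conj_apply hz hz' (hz.map_pow_eq_zero hτ _) (hz'.map_pow_eq_zero hτ' _) (C.h i) ω₀
        (C.fix i),
      hK.map_pow hz hτ, Finset.sum_apply, ← Fin.sum_univ_eq_sum_range
        (fun k => act (τ ^ k) (K τ) ((C.h i)⁻¹ • ω₀))]
    refine Finset.sum_congr rfl fun k _ => ?_
    rw [act_apply, C.he]
  rw [Finset.sum_congr rfl fun i _ => h1 i, ← C.e.sum_comp (fun ω => K τ ω),
    Fintype.sum_sigma]

/-! ### Shapiro: every additive map on `Γ` is the evaluation of a crossed hom -/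

theorem exists_coc_ev [MulAction.IsPretransitive G Ω] (ω₀ : Ω)
    (χ : MulAction.stabilizer G ω₀ → R) (hχ : ∀ γ δ, χ (γ * δ) = χ γ + χ δ) :
    ∃ c : G → Ω → R, IsCoc c ∧ ∀ γ, ev ω₀ c γ = χ γ := by
  classical
  -- a section `r ω • ω₀ = ω`
  have hex : ∀ ω : Ω, ∃ g : G, g • ω₀ = ω := fun ω => MulAction.exists_smul_eq G ω₀ ω
  choose r hr using hex
  have hmem : ∀ (g : G) (ω : Ω), (r ω)⁻¹ * g * r (g⁻¹ • ω) ∈ MulAction.stabilizer G ω₀ := by
    intro g ω
    rw [MulAction.mem_stabilizer_iff, mul_smul, mul_smul, hr, smul_inv_smul, inv_smul_eq_iff, hr]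
  have hχ1 : χ 1 = 0 := by
    have := hχ 1 1; rw [mul_one] at this
    have h2 : χ 1 + 0 = χ 1 + χ 1 := by rw [add_zero]; exact this
    exact (add_left_cancel h2).symm
  have hχinv : ∀ γ, χ γ⁻¹ = -χ γ := by
    intro γ
    have := hχ γ γ⁻¹; rw [mul_inv_cancel, hχ1] at this
    linear_combination -this
  refine ⟨fun g ω => χ ⟨_, hmem g ω⟩, ?_, ?_⟩
  · intro g h
    funext ω
    simp only [Pi.add_apply, act_apply]
    rw [← hχ]
    congr 1
    apply Subtype.ext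
    simp only [Subgroup.coe_mul, mul_inv_rev, mul_smul]
    group
  · intro γ
    simp only [ev_apply]
    have hγ : ((γ : G))⁻¹ • ω₀ = ω₀ := inv_smul_base γ
    have hr0 : r ω₀ ∈ MulAction.stabilizer G ω₀ := by
      rw [MulAction.mem_stabilizer_iff, hr]
    have : (⟨(r ω₀)⁻¹ * (γ : G) * r ((γ : G)⁻¹ • ω₀), hmem (γ : G) ω₀⟩ :
        MulAction.stabilizer G ω₀) = (⟨r ω₀, hr0⟩)⁻¹ * γ * ⟨r ω₀, hr0⟩ := by
      apply Subtype.ext
      simp only [Subgroup.coe_mul, Subgroup.coe_inv, hγ]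
    rw [this, hχ, hχ, hχinv]
    ring

/-- a crossed hom has total sum zero when `G` is generated by elements of finite order and `R` is
torsion-free. -/
theorem sum_coc_eq_zero [Fintype Ω] [NoZeroSMulDivisors ℕ R]
    (hgen : Subgroup.closure {g : G | IsOfFinOrder g} = ⊤) {c : G → Ω → R} (hc : IsCoc c) (g : G) :
    ∑ ω, c g ω = 0 := by
  -- `g ↦ ∑ ω, c g ω` is a homomorphism to `(R, +)`
  let f : G →* Multiplicative R :=
    { toFun := fun g => Multiplicative.ofAdd (∑ ω, c g ω)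
      map_one' := by
        show Multiplicative.ofAdd (∑ ω, c 1 ω) = 1
        rw [hc.map_one]; simp
      map_mul' := by
        intro g h
        show Multiplicative.ofAdd (∑ ω, c (g * h) ω) = _
        rw [hc g h]
        simp only [Pi.add_apply, Finset.sum_add_distrib, sum_act]
        rfl }
  have hker : f.ker = ⊤ := by
    rw [eq_top_iff, ← hgen, Subgroup.closure_le]
    intro x hx
    obtain ⟨n, hn, hxn⟩ := hx.exists_pow_eq_one
    rw [SetLike.mem_coe, MonoidHom.mem_ker]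
    have h1 : (f x) ^ n = 1 := by rw [← map_pow, hxn, map_one]
    have h2 : n • (Multiplicative.toAdd (f x)) = 0 := by
      have := congrArg Multiplicative.toAdd h1
      simpa using this
    have h3 : Multiplicative.toAdd (f x) = 0 := by
      rcases (smul_eq_zero.mp h2) with h | h
      · exact absurd h hn.ne'
      · exact h
    exact Multiplicative.toAdd.injective h3
  have : f g = 1 := by
    rw [← MonoidHom.mem_ker, hker]; trivial
  exact Multiplicative.ofAdd.injective this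

/-- **THE CUSP-SUM FORMULA** (abstract form): for EVERY primitive `κ` of `φ ∪ ψ` on `Γ`
(`φ = ev z`, `ψ = ev z'`), the sum of `κ` over the cusp generators is the total sum of `K τ`, for any
primitive `K` of `z ∪ z'` on `G`. -/
theorem cuspSum_eq [Fintype Ω] [MulAction.IsPretransitive G Ω] [NoZeroSMulDivisors ℕ R]
    {τ : G} {ω₀ : Ω} (C : CuspSys τ ω₀) {z z' K : G → Ω → R}
    (hK : IsPrim z z' K) (hz : IsCoc z) (hz' : IsCoc z') (hτ : z τ = 0) (hτ' : z' τ = 0)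
    (hgen : Subgroup.closure {g : G | IsOfFinOrder g} = ⊤)
    {κ : MulAction.stabilizer G ω₀ → R} (hκ : IsKappa (ev ω₀ z) (ev ω₀ z') κ) :
    ∑ i, κ (C.γ i) = ∑ ω, K τ ω := by
  -- `κ - ev K` is additive, hence the evaluation of a crossed hom `c`
  obtain ⟨c, hc, hcχ⟩ := exists_coc_ev ω₀ (κ - ev ω₀ K) (hκ.sub_hom (isKappa_ev hK))
  have h0 : ∑ i, ev ω₀ c (C.γ i) = 0 := by
    rw [cuspSum_prim C hc.isPrim_zero isCoc_zero isCoc_zero rfl rfl]
    exact sum_coc_eq_zero hgen hc τ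
  have h1 : ∀ i, κ (C.γ i) = ev ω₀ K (C.γ i) + ev ω₀ c (C.γ i) := by
    intro i
    rw [hcχ]; simp
  rw [Finset.sum_congr rfl fun i _ => h1 i, Finset.sum_add_distrib, h0, add_zero,
    cuspSum_prim C hK hz hz' hτ hτ']

/-! ### Invariance under isomorphisms preserving the cusp generators -/

/-- **[PD-COMM], abstract form.** Two data `(G₁, Ω₁, ω₁, τ₁, C₁, z₁, z₁', K₁)` and `(G₂, …)`, a group
isomorphism `θ : Γ₁ ≃* Γ₂` carrying the cusp generators of `Γ₁` to conjugates of the cusp generators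
of `Γ₂` (bijectively), and intertwining the evaluations of the crossed homs. Then the two total sums
`∑ ω, K τ ω` agree. -/
theorem form_comp_iso {G₁ : Type*} [Group G₁] {Ω₁ : Type*} [MulAction G₁ Ω₁] [Fintype Ω₁]
    [MulAction.IsPretransitive G₁ Ω₁]
    {G₂ : Type*} [Group G₂] {Ω₂ : Type*} [MulAction G₂ Ω₂] [Fintype Ω₂]
    [NoZeroSMulDivisors ℕ R]
    {τ₁ : G₁} {ω₁ : Ω₁} (C₁ : CuspSys τ₁ ω₁) {z₁ z₁' K₁ : G₁ → Ω₁ → R}
    (hK₁ : IsPrim z₁ z₁' K₁) (hz₁ : IsCoc z₁) (hz₁' : IsCoc z₁') (hτ₁ : z₁ τ₁ = 0)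
    (hτ₁' : z₁' τ₁ = 0) (hgen₁ : Subgroup.closure {g : G₁ | IsOfFinOrder g} = ⊤)
    {τ₂ : G₂} {ω₂ : Ω₂} (C₂ : CuspSys τ₂ ω₂) {z₂ z₂' K₂ : G₂ → Ω₂ → R}
    (hK₂ : IsPrim z₂ z₂' K₂) (hz₂ : IsCoc z₂) (hz₂' : IsCoc z₂') (hτ₂ : z₂ τ₂ = 0)
    (hτ₂' : z₂' τ₂ = 0)
    (θ : MulAction.stabilizer G₁ ω₁ ≃* MulAction.stabilizer G₂ ω₂) (σ : C₁.I ≃ C₂.I)
    (hθ : ∀ i, ∃ δ : MulAction.stabilizer G₂ ω₂, θ (C₁.γ i) = δ * C₂.γ (σ i) * δ⁻¹)
    (hφ : ∀ γ, ev ω₁ z₁ γ = ev ω₂ z₂ (θ γ)) (hψ : ∀ γ, ev ω₁ z₁' γ = ev ω₂ z₂' (θ γ)) :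
    ∑ ω, K₁ τ₁ ω = ∑ ω, K₂ τ₂ ω := by
  -- transport `κ₂ = ev K₂` to `Γ₁`
  have hκ : IsKappa (ev ω₁ z₁) (ev ω₁ z₁') (fun γ => ev ω₂ K₂ (θ γ)) := by
    intro γ δ
    simp only [map_mul, isKappa_ev hK₂ (θ γ) (θ δ), hφ, hψ]
  rw [← cuspSum_eq C₁ hK₁ hz₁ hz₁' hτ₁ hτ₁' hgen₁ hκ, ← cuspSum_prim C₂ hK₂ hz₂ hz₂' hτ₂ hτ₂',
    ← σ.sum_comp]
  refine Finset.sum_congr rfl fun i _ => ?_
  obtain ⟨δ, hδ⟩ := hθ i
  rw [hδ]
  refine (isKappa_ev hK₂).conj (ev_mul hz₂) (ev_mul hz₂') ?_ ?_ δ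
  · rw [ev_apply, CuspSys.coe_γ]
    have := hz₂.isPrim_zero.conj_apply isCoc_zero isCoc_zero (g := τ₂ ^ C₂.w (σ i)) rfl rfl
      (C₂.h (σ i)) ω₂ (C₂.fix (σ i))
    rw [this, hz₂.map_pow_eq_zero hτ₂]; rfl
  · rw [ev_apply, CuspSys.coe_γ]
    have := hz₂'.isPrim_zero.conj_apply isCoc_zero isCoc_zero (g := τ₂ ^ C₂.w (σ i)) rfl rfl
      (C₂.h (σ i)) ω₂ (C₂.fix (σ i))
    rw [this, hz₂'.map_pow_eq_zero hτ₂']; rfl

end Fermat.Agent.S41.CuspSum22
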