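/-
S41 / C8 [PD-COMM] — the canonical cusp system of a transitive action on a finite set (helper22).

`CuspSys.ofOrbits τ ω₀ : CuspSys τ ω₀` for `[Fintype Ω] [MulAction.IsPretransitive G Ω]`:
the index set is the set of `⟨τ⟩`-orbits on `Ω`, the base point of an orbit is a chosen
representative, the width is its `MulAction.period`.
-/
import Fermat.Agent.S41.CuspSum22.Core

set_option autoImplicit false
set_option linter.unusedSectionVars false

namespace Fermat.Agent.S41.CuspSum22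

open MulAction

variable {G : Type*} [Group G] {Ω : Type*} [MulAction G Ω]

theorem period_pos_of_finite [Finite Ω] (τ : G) (b : Ω) : 0 < period τ b := by
  have : Fintype Ω := Fintype.ofFinite Ω
  classical
  have hpos : 0 < orderOf (MulAction.toPerm τ : Equiv.Perm Ω) := orderOf_pos _
  refine period_pos_of_fixed hpos ?_
  have h1 : (MulAction.toPerm τ : Equiv.Perm Ω) ^ orderOf (MulAction.toPerm τ : Equiv.Perm Ω) = 1 :=
    pow_orderOf_eq_one _
  have h2 : ∀ n : ℕ, ((MulAction.toPerm τ : Equiv.Perm Ω) ^ n) b = τ ^ n • b := by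
    intro n
    induction n with
    | zero => simp
    | succ n ih => rw [pow_succ', Equiv.Perm.mul_apply, ih, MulAction.toPerm_apply, pow_succ', mul_smul]
  rw [← h2, h1]; rfl

/-- the orbits of the cyclic group generated by `τ`. -/
abbrev TauOrbits (τ : G) (Ω : Type*) [MulAction G Ω] : Type _ :=
  Quotient (MulAction.orbitRel (Subgroup.zpowers τ) Ω)

theorem mem_orbit_zpowers_iff (τ : G) (a b : Ω) :
    a ∈ MulAction.orbit (Subgroup.zpowers τ) b ↔ ∃ n : ℤ, τ ^ n • b = a := by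
  constructor
  · rintro ⟨⟨g, hg⟩, rfl⟩
    obtain ⟨n, rfl⟩ := Subgroup.mem_zpowers_iff.mp hg
    exact ⟨n, rfl⟩
  · rintro ⟨n, rfl⟩
    exact ⟨⟨τ ^ n, Subgroup.zpow_mem_zpowers τ n⟩, rfl⟩

/-- every point is `(τ^k)⁻¹ • b` for the representative `b` of its orbit and a unique
`k < period τ b`. -/
theorem exists_pow_inv_smul_out [Finite Ω] (τ : G) (ω : Ω) :
    ∃ k : ℕ, k < period τ (Quotient.out (⟦ω⟧ : TauOrbits τ Ω)) ∧
      (τ ^ k)⁻¹ • (Quotient.out (⟦ω⟧ : TauOrbits τ Ω)) = ω := by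
  set b : Ω := Quotient.out (⟦ω⟧ : TauOrbits τ Ω) with hb
  have hrel : (MulAction.orbitRel (Subgroup.zpowers τ) Ω) b ω := Quotient.mk_out (s := MulAction.orbitRel (Subgroup.zpowers τ) Ω) ω
  have hmem : ω ∈ MulAction.orbit (Subgroup.zpowers τ) b := by
    have := (MulAction.orbitRel_apply).mp hrel
    exact MulAction.mem_orbit_symm.mp this
  obtain ⟨n, hn⟩ := (mem_orbit_zpowers_iff τ ω b).mp hmem
  have hp : 0 < period τ b := period_pos_of_finite τ b
  have hpz : (0 : ℤ) < (period τ b : ℤ) := by exact_mod_cast hp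
  refine ⟨((-n) % (period τ b : ℤ)).toNat, ?_, ?_⟩
  · have h1 : (-n) % (period τ b : ℤ) < (period τ b : ℤ) := Int.emod_lt_of_pos _ hpz
    have h0 : 0 ≤ (-n) % (period τ b : ℤ) := Int.emod_nonneg _ hpz.ne'
    omega
  · have h0 : 0 ≤ (-n) % (period τ b : ℤ) := Int.emod_nonneg _ hpz.ne'
    rw [← zpow_natCast, Int.toNat_of_nonneg h0, ← zpow_neg, ← hn]
    have key : -((-n) % (period τ b : ℤ)) = n + (period τ b : ℤ) * ((-n) / (period τ b : ℤ)) := by
      have := Int.emod_add_mul_ediv (-n) (period τ b : ℤ)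
      linarith
    rw [key, zpow_add, mul_smul, zpow_smul_eq_iff_period_dvd.mpr (dvd_mul_right _ _)]

/-- uniqueness of the exponent. -/
theorem pow_inv_smul_injOn (τ : G) (b : Ω) {k l : ℕ} (hk : k < period τ b) (hl : l < period τ b)
    (h : (τ ^ k)⁻¹ • b = (τ ^ l)⁻¹ • b) : k = l := by
  -- `τ ^ (k - l) • b = b`
  have h1 : τ ^ ((k : ℤ) - (l : ℤ)) • b = b := by
    rw [zpow_sub, zpow_natCast, zpow_natCast, mul_smul, ← h, smul_inv_smul]
  have h2 := zpow_smul_eq_iff_period_dvd.mp h1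
  have hk' : (k : ℤ) < (period τ b : ℤ) := by exact_mod_cast hk
  have hl' : (l : ℤ) < (period τ b : ℤ) := by exact_mod_cast hl
  have h3 : (k : ℤ) - (l : ℤ) = 0 := by
    apply Int.eq_zero_of_abs_lt_dvd h2
    rw [abs_lt]
    constructor <;> omega
  omega

theorem orbit_pow_inv_smul_out (τ : G) (i : TauOrbits τ Ω) (k : ℕ) :
    (⟦(τ ^ k)⁻¹ • (Quotient.out i)⟧ : TauOrbits τ Ω) = i := by
  conv_rhs => rw [← Quotient.out_eq i]
  apply Quotient.sound
  show (MulAction.orbitRel (Subgroup.zpowers τ) Ω) _ _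
  rw [MulAction.orbitRel_apply]
  exact ⟨⟨(τ ^ k)⁻¹, Subgroup.inv_mem _ (Subgroup.npow_mem_zpowers τ k)⟩, rfl⟩

/-- **the canonical cusp system** of a transitive action on a finite set. -/
noncomputable def CuspSys.ofOrbits [Fintype Ω] [MulAction.IsPretransitive G Ω] (τ : G) (ω₀ : Ω) :
    CuspSys τ ω₀ := by
  classical
  -- a section `r ω • ω₀ = ω`
  let r : Ω → G := fun ω => Classical.choose (MulAction.exists_smul_eq G ω₀ ω)
  have hr : ∀ ω, r ω • ω₀ = ω := fun ω => Classical.choose_spec (MulAction.exists_smul_eq G ω₀ ω)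
  have hb : ∀ i : TauOrbits τ Ω, ((r (Quotient.out i))⁻¹)⁻¹ • ω₀ = Quotient.out i := by
    intro i; rw [inv_inv, hr]
  exact
    { I := TauOrbits τ Ω
      fI := Quotient.fintype _
      h := fun i => (r (Quotient.out i))⁻¹
      w := fun i => period τ (Quotient.out i)
      fix := fun i => by rw [hb i, pow_period_smul]
      e := Equiv.ofBijective
        (fun x : (Σ i : TauOrbits τ Ω, Fin (period τ (Quotient.out i))) =>
          (τ ^ (x.2 : ℕ))⁻¹ • (Quotient.out x.1)) (by
        constructor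
        · rintro ⟨i, k⟩ ⟨j, l⟩ h
          simp only at h
          have hij : i = j := by
            rw [← orbit_pow_inv_smul_out τ i (k : ℕ), ← orbit_pow_inv_smul_out τ j (l : ℕ), h]
          subst hij
          have := pow_inv_smul_injOn τ (Quotient.out i) k.2 l.2 h
          congr 1
          exact Fin.ext this
        · intro ω
          obtain ⟨k, hk, hkω⟩ := exists_pow_inv_smul_out τ ω
          exact ⟨⟨⟦ω⟧, ⟨k, hk⟩⟩, hkω⟩)
      he := fun i k => by
        rw [hb i]; rfl }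

@[simp] theorem CuspSys.ofOrbits_I [Fintype Ω] [MulAction.IsPretransitive G Ω] (τ : G) (ω₀ : Ω) :
    (CuspSys.ofOrbits τ ω₀).I = TauOrbits τ Ω := rfl

theorem CuspSys.ofOrbits_w [Fintype Ω] [MulAction.IsPretransitive G Ω] (τ : G) (ω₀ : Ω)
    (i : TauOrbits τ Ω) : (CuspSys.ofOrbits τ ω₀).w i = period τ (Quotient.out i) := rfl

theorem CuspSys.ofOrbits_base [Fintype Ω] [MulAction.IsPretransitive G Ω] (τ : G) (ω₀ : Ω)
    (i : TauOrbits τ Ω) : ((CuspSys.ofOrbits τ ω₀).h i)⁻¹ • ω₀ = Quotient.out i := by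
  show ((Classical.choose (MulAction.exists_smul_eq G ω₀ (Quotient.out i)))⁻¹)⁻¹ • ω₀ = _
  rw [inv_inv]
  exact Classical.choose_spec (MulAction.exists_smul_eq G ω₀ (Quotient.out i))

end Fermat.Agent.S41.CuspSum22
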