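/-
S41 / C8 [PD-COMM] — conjugacy classes of the cusp generators (helper22).

Abstract bookkeeping for the hypotheses `(σ, hθ)` of `form_comp_iso`: for a cusp system `C` without
phantom cusps (`0 < C.w i`; e.g. `CuspSys.ofOrbits`) the generators `C.γ i` are representatives of
the `Γ`-conjugacy classes of the elements of `Γ` satisfying the intrinsic predicate `IsPrimConj`
("conjugate of a positive power of `τ` with the smallest exponent landing in `Γ`"); an isomorphism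
`θ : Γ₁ ≃* Γ₂` preserving this predicate therefore induces a bijection of the cusps compatible with
the generators.
-/
import Fermat.Agent.S41.CuspSum22.Orbits

set_option autoImplicit false
set_option linter.unusedSectionVars false

namespace Fermat.Agent.S41.CuspSum22

open MulAction

variable {G : Type*} [Group G] {Ω : Type*} [MulAction G Ω]

/-- the period is constant along the orbits of `⟨τ⟩`. -/
theorem period_zpow_smul (τ : G) (j : ℤ) (b : Ω) : period τ (τ ^ j • b) = period τ b := by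
  have key : ∀ n : ℕ, τ ^ n • (τ ^ j • b) = τ ^ j • b ↔ τ ^ n • b = b := by
    intro n
    rw [← zpow_natCast, ← mul_smul, ← zpow_add, add_comm, zpow_add, mul_smul, smul_left_cancel_iff]
  apply Nat.dvd_antisymm
  · rw [← pow_smul_eq_iff_period_dvd, key, pow_period_smul]
  · rw [← pow_smul_eq_iff_period_dvd, ← key, pow_period_smul]

theorem period_pow_inv_smul (τ : G) (k : ℕ) (b : Ω) : period τ ((τ ^ k)⁻¹ • b) = period τ b := by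
  have := period_zpow_smul τ (-(k : ℤ)) b
  rwa [zpow_neg, zpow_natCast] at this

/-- every point `τ^m • b` (`m : ℤ`) is `(τ^k)⁻¹ • b` with `k < period`. -/
theorem exists_pow_inv_smul_eq (τ : G) (b : Ω) (hp : 0 < period τ b) (m : ℤ) :
    ∃ k : ℕ, k < period τ b ∧ (τ ^ k)⁻¹ • b = τ ^ m • b := by
  have hpz : (0 : ℤ) < (period τ b : ℤ) := by exact_mod_cast hp
  have h0 : 0 ≤ (-m) % (period τ b : ℤ) := Int.emod_nonneg _ hpz.ne'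
  refine ⟨((-m) % (period τ b : ℤ)).toNat, ?_, ?_⟩
  · have h1 : (-m) % (period τ b : ℤ) < (period τ b : ℤ) := Int.emod_lt_of_pos _ hpz
    omega
  · rw [← zpow_natCast, Int.toNat_of_nonneg h0, ← zpow_neg]
    have key : -((-m) % (period τ b : ℤ)) = m + (period τ b : ℤ) * ((-m) / (period τ b : ℤ)) := by
      have := Int.emod_add_mul_ediv (-m) (period τ b : ℤ)
      linarith
    rw [key, zpow_add, mul_smul, zpow_smul_eq_iff_period_dvd.mpr (dvd_mul_right _ _)]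

/-- `γ ∈ Γ` is a conjugate of a positive power of `τ`, with the smallest exponent landing in `Γ`. -/
def IsPrimConj (τ : G) (ω₀ : Ω) (γ : stabilizer G ω₀) : Prop :=
  ∃ (g : G) (n : ℕ), 0 < n ∧ (γ : G) = g * τ ^ n * g⁻¹ ∧ n = period τ (g⁻¹ • ω₀)

theorem IsPrimConj.conj {τ : G} {ω₀ : Ω} {γ : stabilizer G ω₀} (hγ : IsPrimConj τ ω₀ γ)
    (δ : stabilizer G ω₀) : IsPrimConj τ ω₀ (δ * γ * δ⁻¹) := by
  obtain ⟨g, n, hn, hg, hper⟩ := hγ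
  refine ⟨(δ : G) * g, n, hn, ?_, ?_⟩
  · simp only [Subgroup.coe_mul, Subgroup.coe_inv, hg, mul_inv_rev]
    group
  · rw [hper, mul_inv_rev, mul_smul, inv_smul_base]

namespace CuspSys

variable {τ : G} {ω₀ : Ω} (C : CuspSys τ ω₀)

/-- the base point of the `i`-th cusp. -/
def base (i : C.I) : Ω := (C.h i)⁻¹ • ω₀

theorem e_apply (i : C.I) (k : Fin (C.w i)) : C.e ⟨i, k⟩ = (τ ^ (k : ℕ))⁻¹ • C.base i := C.he i k

theorem fix_base (i : C.I) : τ ^ (C.w i) • C.base i = C.base i := C.fix i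

/-- without phantom cusps the width is the period of the base point. -/
theorem w_eq_period (hw : ∀ i, 0 < C.w i) (i : C.I) : C.w i = period τ (C.base i) := by
  have hdvd : period τ (C.base i) ∣ C.w i := pow_smul_eq_iff_period_dvd.mp (C.fix_base i)
  have hpos : 0 < period τ (C.base i) := Nat.pos_of_dvd_of_pos hdvd (hw i)
  by_contra hne
  have hlt : period τ (C.base i) < C.w i :=
    lt_of_le_of_ne (Nat.le_of_dvd (hw i) hdvd) (Ne.symm hne)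
  have h1 : C.e ⟨i, ⟨0, hw i⟩⟩ = C.e ⟨i, ⟨period τ (C.base i), hlt⟩⟩ := by
    rw [C.e_apply, C.e_apply]
    simp only [pow_zero, inv_one, one_smul]
    rw [eq_inv_smul_iff, pow_period_smul]
  have h2 := C.e.injective h1
  simp only [Sigma.mk.injEq, heq_eq_eq, true_and, Fin.mk.injEq] at h2
  omega

theorem exists_rep (ω : Ω) : ∃ (i : C.I) (k : ℕ), k < C.w i ∧ (τ ^ k)⁻¹ • C.base i = ω := by
  obtain ⟨⟨i, k⟩, hk⟩ := C.e.surjective ω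
  exact ⟨i, k, k.2, by rw [← hk, C.e_apply]⟩

theorem rep_unique {i j : C.I} {k l : ℕ} (hk : k < C.w i) (hl : l < C.w j)
    (h : (τ ^ k)⁻¹ • C.base i = (τ ^ l)⁻¹ • C.base j) : i = j := by
  have h1 : C.e ⟨i, ⟨k, hk⟩⟩ = C.e ⟨j, ⟨l, hl⟩⟩ := by rw [C.e_apply, C.e_apply]; exact h
  have h2 := C.e.injective h1
  exact (Sigma.mk.inj_iff.mp h2).1

/-- two base points in the same `⟨τ⟩`-orbit belong to the same cusp. -/
theorem eq_of_zpow_smul_base (hw : ∀ i, 0 < C.w i) {i j : C.I} (m : ℤ)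
    (h : τ ^ m • C.base j = C.base i) : i = j := by
  have hp : 0 < period τ (C.base j) := by rw [← C.w_eq_period hw]; exact hw j
  obtain ⟨k, hk, hkm⟩ := exists_pow_inv_smul_eq τ (C.base j) hp m
  rw [← C.w_eq_period hw] at hk
  refine C.rep_unique (k := 0) (hw i) hk ?_
  rw [hkm, h]; simp

theorem isPrimConj_γ (hw : ∀ i, 0 < C.w i) (i : C.I) : IsPrimConj τ ω₀ (C.γ i) :=
  ⟨C.h i, C.w i, hw i, rfl, C.w_eq_period hw i⟩

/-- every `IsPrimConj` element is `Γ`-conjugate to a cusp generator. -/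
theorem exists_conj_γ (hw : ∀ i, 0 < C.w i) {γ : stabilizer G ω₀} (hγ : IsPrimConj τ ω₀ γ) :
    ∃ (i : C.I) (δ : stabilizer G ω₀), γ = δ * C.γ i * δ⁻¹ := by
  obtain ⟨g, n, hn, hg, hper⟩ := hγ
  obtain ⟨i, k, hk, hkω⟩ := C.exists_rep (g⁻¹ • ω₀)
  have hδmem : g * (τ ^ k)⁻¹ * (C.h i)⁻¹ ∈ stabilizer G ω₀ := by
    rw [mem_stabilizer_iff, mul_smul, mul_smul]
    show g • (τ ^ k)⁻¹ • C.base i = ω₀
    rw [hkω, smul_inv_smul]
  refine ⟨i, ⟨_, hδmem⟩, ?_⟩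
  apply Subtype.ext
  have hwn : C.w i = n := by
    rw [C.w_eq_period hw, hper, ← hkω, period_pow_inv_smul]
  have hcomm : (τ ^ k)⁻¹ * τ ^ n * τ ^ k = τ ^ n := by
    rw [← zpow_natCast, ← zpow_natCast, ← zpow_neg, ← zpow_add, ← zpow_add]
    congr 1; ring
  simp only [Subgroup.coe_mul, Subgroup.coe_inv, CuspSys.coe_γ, hg, hwn, mul_inv_rev, inv_inv]
  calc g * τ ^ n * g⁻¹ = g * ((τ ^ k)⁻¹ * τ ^ n * τ ^ k) * g⁻¹ := by rw [hcomm]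
    _ = _ := by group

/-- distinct cusps have non-conjugate generators, provided the normaliser-type condition `hcent`
(`Stab(∞) = ⟨u⟩` in `PSL₂(ℤ)`). -/
theorem γ_conj_inj (hw : ∀ i, 0 < C.w i)
    (hcent : ∀ (g : G) (a b : ℕ), 0 < a → 0 < b → g * τ ^ a * g⁻¹ = τ ^ b →
      g ∈ Subgroup.zpowers τ)
    {i j : C.I} (h : ∃ δ : stabilizer G ω₀, C.γ i = δ * C.γ j * δ⁻¹) : i = j := by
  obtain ⟨δ, hδ⟩ := h
  have hδ' := congrArg (fun x : stabilizer G ω₀ => (x : G)) hδ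
  simp only [Subgroup.coe_mul, Subgroup.coe_inv, CuspSys.coe_γ] at hδ'
  -- `g = hi⁻¹ δ hj` conjugates `τ^{w_j}` to `τ^{w_i}`
  have hg : ((C.h i)⁻¹ * (δ : G) * C.h j) * τ ^ C.w j * ((C.h i)⁻¹ * (δ : G) * C.h j)⁻¹ =
      τ ^ C.w i := by
    have : τ ^ C.w i = (C.h i)⁻¹ * (C.h i * τ ^ C.w i * (C.h i)⁻¹) * C.h i := by group
    rw [this, hδ']
    group
  obtain ⟨m, hm⟩ := Subgroup.mem_zpowers_iff.mp (hcent _ _ _ (hw j) (hw i) hg)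
  have hδω : (δ : G) • ω₀ = ω₀ := mem_stabilizer_iff.mp δ.2
  refine C.eq_of_zpow_smul_base hw m ?_
  rw [hm]
  show ((C.h i)⁻¹ * (δ : G) * C.h j) • (C.h j)⁻¹ • ω₀ = (C.h i)⁻¹ • ω₀
  rw [mul_smul, mul_smul, smul_inv_smul, hδω]

end CuspSys

theorem CuspSys.ofOrbits_w_pos [Fintype Ω] [IsPretransitive G Ω] (τ : G) (ω₀ : Ω)
    (i : (CuspSys.ofOrbits τ ω₀).I) : 0 < (CuspSys.ofOrbits τ ω₀).w i :=
  period_pos_of_finite τ _

/-- **the hypotheses `(σ, hθ)` of `form_comp_iso`** from an isomorphism preserving `IsPrimConj`. -/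
theorem exists_cusp_equiv {G₁ : Type*} [Group G₁] {Ω₁ : Type*} [MulAction G₁ Ω₁]
    {G₂ : Type*} [Group G₂] {Ω₂ : Type*} [MulAction G₂ Ω₂]
    {τ₁ : G₁} {ω₁ : Ω₁} {τ₂ : G₂} {ω₂ : Ω₂} (C₁ : CuspSys τ₁ ω₁) (C₂ : CuspSys τ₂ ω₂)
    (hw₁ : ∀ i, 0 < C₁.w i) (hw₂ : ∀ i, 0 < C₂.w i)
    (θ : stabilizer G₁ ω₁ ≃* stabilizer G₂ ω₂)
    (hθ : ∀ γ, IsPrimConj τ₁ ω₁ γ ↔ IsPrimConj τ₂ ω₂ (θ γ))
    (hcent₁ : ∀ (g : G₁) (a b : ℕ), 0 < a → 0 < b → g * τ₁ ^ a * g⁻¹ = τ₁ ^ b →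
      g ∈ Subgroup.zpowers τ₁)
    (hcent₂ : ∀ (g : G₂) (a b : ℕ), 0 < a → 0 < b → g * τ₂ ^ a * g⁻¹ = τ₂ ^ b →
      g ∈ Subgroup.zpowers τ₂) :
    ∃ σ : C₁.I ≃ C₂.I, ∀ i, ∃ δ, θ (C₁.γ i) = δ * C₂.γ (σ i) * δ⁻¹ := by
  classical
  have hex : ∀ i : C₁.I, ∃ (j : C₂.I) (δ : stabilizer G₂ ω₂),
      θ (C₁.γ i) = δ * C₂.γ j * δ⁻¹ :=
    fun i => C₂.exists_conj_γ hw₂ ((hθ _).mp (C₁.isPrimConj_γ hw₁ i))
  choose f hf using hex
  have hinj : Function.Injective f := by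
    intro i i' hii
    obtain ⟨δ, hδ⟩ := hf i
    obtain ⟨δ', hδ'⟩ := hf i'
    rw [hii] at hδ
    apply C₁.γ_conj_inj hw₁ hcent₁
    refine ⟨θ.symm (δ * δ'⁻¹), ?_⟩
    apply θ.injective
    have h1 : C₂.γ (f i') = δ'⁻¹ * θ (C₁.γ i') * δ' := by
      rw [hδ']; group
    rw [hδ, h1]
    simp only [map_mul, map_inv, MulEquiv.apply_symm_apply]
    group
  have hsurj : Function.Surjective f := by
    intro j
    have hj : IsPrimConj τ₁ ω₁ (θ.symm (C₂.γ j)) := by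
      rw [hθ, MulEquiv.apply_symm_apply]; exact C₂.isPrimConj_γ hw₂ j
    obtain ⟨i, δ, hδ⟩ := C₁.exists_conj_γ hw₁ hj
    refine ⟨i, ?_⟩
    obtain ⟨δ', hδ'⟩ := hf i
    apply C₂.γ_conj_inj hw₂ hcent₂
    refine ⟨δ'⁻¹ * (θ δ)⁻¹, ?_⟩
    have h1 : C₂.γ j = θ δ * θ (C₁.γ i) * (θ δ)⁻¹ := by
      have := congrArg θ hδ
      simpa only [map_mul, map_inv, MulEquiv.apply_symm_apply] using this
    have h2 : C₂.γ (f i) = δ'⁻¹ * θ (C₁.γ i) * δ' := by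
      rw [hδ']; group
    rw [h2, h1]
    group
  exact ⟨Equiv.ofBijective f ⟨hinj, hsurj⟩, fun i => hf i⟩

/-- **[PD-COMM], packaged**: `form_comp_iso` with the cusp bijection produced by
`exists_cusp_equiv`: an isomorphism `θ : Γ₁ ≃* Γ₂` preserving `IsPrimConj` and intertwining the
evaluations of the crossed homs preserves the total sum `∑ ω, K τ ω`. -/
theorem form_comp_iso_of_isPrimConj {R : Type*} [CommRing R] [NoZeroSMulDivisors ℕ R]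
    {G₁ : Type*} [Group G₁] {Ω₁ : Type*} [MulAction G₁ Ω₁] [Fintype Ω₁]
    [IsPretransitive G₁ Ω₁]
    {G₂ : Type*} [Group G₂] {Ω₂ : Type*} [MulAction G₂ Ω₂] [Fintype Ω₂] [IsPretransitive G₂ Ω₂]
    {τ₁ : G₁} {ω₁ : Ω₁} {z₁ z₁' K₁ : G₁ → Ω₁ → R}
    (hK₁ : IsPrim z₁ z₁' K₁) (hz₁ : IsCoc z₁) (hz₁' : IsCoc z₁') (hτ₁ : z₁ τ₁ = 0)
    (hτ₁' : z₁' τ₁ = 0) (hgen₁ : Subgroup.closure {g : G₁ | IsOfFinOrder g} = ⊤)
    {τ₂ : G₂} {ω₂ : Ω₂} {z₂ z₂' K₂ : G₂ → Ω₂ → R}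
    (hK₂ : IsPrim z₂ z₂' K₂) (hz₂ : IsCoc z₂) (hz₂' : IsCoc z₂') (hτ₂ : z₂ τ₂ = 0)
    (hτ₂' : z₂' τ₂ = 0)
    (θ : stabilizer G₁ ω₁ ≃* stabilizer G₂ ω₂)
    (hθ : ∀ γ, IsPrimConj τ₁ ω₁ γ ↔ IsPrimConj τ₂ ω₂ (θ γ))
    (hcent₁ : ∀ (g : G₁) (a b : ℕ), 0 < a → 0 < b → g * τ₁ ^ a * g⁻¹ = τ₁ ^ b →
      g ∈ Subgroup.zpowers τ₁)
    (hcent₂ : ∀ (g : G₂) (a b : ℕ), 0 < a → 0 < b → g * τ₂ ^ a * g⁻¹ = τ₂ ^ b →
      g ∈ Subgroup.zpowers τ₂)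
    (hφ : ∀ γ, ev ω₁ z₁ γ = ev ω₂ z₂ (θ γ)) (hψ : ∀ γ, ev ω₁ z₁' γ = ev ω₂ z₂' (θ γ)) :
    ∑ ω, K₁ τ₁ ω = ∑ ω, K₂ τ₂ ω := by
  obtain ⟨σ, hσ⟩ := exists_cusp_equiv (CuspSys.ofOrbits τ₁ ω₁) (CuspSys.ofOrbits τ₂ ω₂)
    (CuspSys.ofOrbits_w_pos τ₁ ω₁) (CuspSys.ofOrbits_w_pos τ₂ ω₂) θ hθ hcent₁ hcent₂
  exact form_comp_iso (CuspSys.ofOrbits τ₁ ω₁) hK₁ hz₁ hz₁' hτ₁ hτ₁' hgen₁
    (CuspSys.ofOrbits τ₂ ω₂) hK₂ hz₂ hz₂' hτ₂ hτ₂' θ σ hσ hφ hψ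

end Fermat.Agent.S41.CuspSum22
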