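/-
S41 / C8 [PD-COMM] — variant of `Classes.lean` with a WEAKER normaliser hypothesis (helper22),
usable for `G = SL(2,ℤ)` acting on `Ω = SL(2,ℤ) ⧸ Γ` with `-1 ∈ Γ` (where `g T^a g⁻¹ = T^b` only gives
`g ∈ ±⟨T⟩`): `hcent' : g τ^a g⁻¹ = τ^b → ∃ m : ℤ, ∀ ω, g • ω = τ^m • ω`.
-/
import Fermat.Agent.S41.CuspSum22.Classes

set_option autoImplicit false
set_option linter.unusedSectionVars false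

namespace Fermat.Agent.S41.CuspSum22

open MulAction

variable {G : Type*} [Group G] {Ω : Type*} [MulAction G Ω]

/-- the strong normaliser hypothesis implies the weak one. -/
theorem hcent'_of_hcent {τ : G}
    (hcent : ∀ (g : G) (a b : ℕ), 0 < a → 0 < b → g * τ ^ a * g⁻¹ = τ ^ b →
      g ∈ Subgroup.zpowers τ) :
    ∀ (g : G) (a b : ℕ), 0 < a → 0 < b → g * τ ^ a * g⁻¹ = τ ^ b →
      ∃ m : ℤ, ∀ ω : Ω, g • ω = τ ^ m • ω := by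
  intro g a b ha hb h
  obtain ⟨m, hm⟩ := Subgroup.mem_zpowers_iff.mp (hcent g a b ha hb h)
  exact ⟨m, fun ω => by rw [hm]⟩

namespace CuspSys

variable {τ : G} {ω₀ : Ω} (C : CuspSys τ ω₀)

/-- distinct cusps have non-conjugate generators (weak normaliser hypothesis). -/
theorem γ_conj_inj' (hw : ∀ i, 0 < C.w i)
    (hcent : ∀ (g : G) (a b : ℕ), 0 < a → 0 < b → g * τ ^ a * g⁻¹ = τ ^ b →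
      ∃ m : ℤ, ∀ ω : Ω, g • ω = τ ^ m • ω)
    {i j : C.I} (h : ∃ δ : stabilizer G ω₀, C.γ i = δ * C.γ j * δ⁻¹) : i = j := by
  obtain ⟨δ, hδ⟩ := h
  have hδ' := congrArg (fun x : stabilizer G ω₀ => (x : G)) hδ
  simp only [Subgroup.coe_mul, Subgroup.coe_inv, CuspSys.coe_γ] at hδ'
  have hg : ((C.h i)⁻¹ * (δ : G) * C.h j) * τ ^ C.w j * ((C.h i)⁻¹ * (δ : G) * C.h j)⁻¹ =
      τ ^ C.w i := by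
    have : τ ^ C.w i = (C.h i)⁻¹ * (C.h i * τ ^ C.w i * (C.h i)⁻¹) * C.h i := by group
    rw [this, hδ']
    group
  obtain ⟨m, hm⟩ := hcent _ _ _ (hw j) (hw i) hg
  have hδω : (δ : G) • ω₀ = ω₀ := mem_stabilizer_iff.mp δ.2
  refine C.eq_of_zpow_smul_base hw m ?_
  rw [← hm]
  show ((C.h i)⁻¹ * (δ : G) * C.h j) • (C.h j)⁻¹ • ω₀ = (C.h i)⁻¹ • ω₀
  rw [mul_smul, mul_smul, smul_inv_smul, hδω]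

end CuspSys

/-- `exists_cusp_equiv` with the weak normaliser hypotheses. -/
theorem exists_cusp_equiv' {G₁ : Type*} [Group G₁] {Ω₁ : Type*} [MulAction G₁ Ω₁]
    {G₂ : Type*} [Group G₂] {Ω₂ : Type*} [MulAction G₂ Ω₂]
    {τ₁ : G₁} {ω₁ : Ω₁} {τ₂ : G₂} {ω₂ : Ω₂} (C₁ : CuspSys τ₁ ω₁) (C₂ : CuspSys τ₂ ω₂)
    (hw₁ : ∀ i, 0 < C₁.w i) (hw₂ : ∀ i, 0 < C₂.w i)
    (θ : stabilizer G₁ ω₁ ≃* stabilizer G₂ ω₂)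
    (hθ : ∀ γ, IsPrimConj τ₁ ω₁ γ ↔ IsPrimConj τ₂ ω₂ (θ γ))
    (hcent₁ : ∀ (g : G₁) (a b : ℕ), 0 < a → 0 < b → g * τ₁ ^ a * g⁻¹ = τ₁ ^ b →
      ∃ m : ℤ, ∀ ω : Ω₁, g • ω = τ₁ ^ m • ω)
    (hcent₂ : ∀ (g : G₂) (a b : ℕ), 0 < a → 0 < b → g * τ₂ ^ a * g⁻¹ = τ₂ ^ b →
      ∃ m : ℤ, ∀ ω : Ω₂, g • ω = τ₂ ^ m • ω) :
    ∃ σ : C₁.I ≃ C₂.I, ∀ i, ∃ δ, θ (C₁.γ i) = δ * C₂.γ (σ i) * δ⁻¹ := by
  classical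
  have hex : ∀ i : C₁.I, ∃ (j : C₂.I) (δ : stabilizer G₂ ω₂),
      θ (C₁.γ i) = δ * C₂.γ j * δ⁻¹ :=
    fun i => C₂.exists_conj_γ hw₂ ((hθ _).mp (C₁.isPrimConj_γ hw₁ i))
  choose f hf using hex
  have hinj : Function.Injective f := by
    intro i i' hii
    obtain ⟨δ, hδ⟩ := hf i
    obtain ⟨δ', hδ'⟩ := hf i'
    rw [hii] at hδ
    apply C₁.γ_conj_inj' hw₁ hcent₁
    refine ⟨θ.symm (δ * δ'⁻¹), ?_⟩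
    apply θ.injective
    have h1 : C₂.γ (f i') = δ'⁻¹ * θ (C₁.γ i') * δ' := by
      rw [hδ']; group
    rw [hδ, h1]
    simp only [map_mul, map_inv, MulEquiv.apply_symm_apply]
    group
  have hsurj : Function.Surjective f := by
    intro j
    have hj : IsPrimConj τ₁ ω₁ (θ.symm (C₂.γ j)) := by
      rw [hθ, MulEquiv.apply_symm_apply]; exact C₂.isPrimConj_γ hw₂ j
    obtain ⟨i, δ, hδ⟩ := C₁.exists_conj_γ hw₁ hj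
    refine ⟨i, ?_⟩
    obtain ⟨δ', hδ'⟩ := hf i
    apply C₂.γ_conj_inj' hw₂ hcent₂
    refine ⟨δ'⁻¹ * (θ δ)⁻¹, ?_⟩
    have h1 : C₂.γ j = θ δ * θ (C₁.γ i) * (θ δ)⁻¹ := by
      have := congrArg θ hδ
      simpa only [map_mul, map_inv, MulEquiv.apply_symm_apply] using this
    have h2 : C₂.γ (f i) = δ'⁻¹ * θ (C₁.γ i) * δ' := by
      rw [hδ']; group
    rw [h2, h1]
    group
  exact ⟨Equiv.ofBijective f ⟨hinj, hsurj⟩, fun i => hf i⟩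

/-- **[PD-COMM], packaged, weak normaliser hypotheses** (usable for `G = SL(2,ℤ)`). -/
theorem form_comp_iso_of_isPrimConj' {R : Type*} [CommRing R] [NoZeroSMulDivisors ℕ R]
    {G₁ : Type*} [Group G₁] {Ω₁ : Type*} [MulAction G₁ Ω₁] [Fintype Ω₁]
    [IsPretransitive G₁ Ω₁]
    {G₂ : Type*} [Group G₂] {Ω₂ : Type*} [MulAction G₂ Ω₂] [Fintype Ω₂] [IsPretransitive G₂ Ω₂]
    {τ₁ : G₁} {ω₁ : Ω₁} {z₁ z₁' K₁ : G₁ → Ω₁ → R}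
    (hK₁ : IsPrim z₁ z₁' K₁) (hz₁ : IsCoc z₁) (hz₁' : IsCoc z₁') (hτ₁ : z₁ τ₁ = 0)
    (hτ₁' : z₁' τ₁ = 0) (hgen₁ : Subgroup.closure {g : G₁ | IsOfFinOrder g} = ⊤)
    {τ₂ : G₂} {ω₂ : Ω₂} {z₂ z₂' K₂ : G₂ → Ω₂ → R}
    (hK₂ : IsPrim z₂ z₂' K₂) (hz₂ : IsCoc z₂) (hz₂' : IsCoc z₂') (hτ₂ : z₂ τ₂ = 0)
    (hτ₂' : z₂' τ₂ = 0)
    (θ : stabilizer G₁ ω₁ ≃* stabilizer G₂ ω₂)
    (hθ : ∀ γ, IsPrimConj τ₁ ω₁ γ ↔ IsPrimConj τ₂ ω₂ (θ γ))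
    (hcent₁ : ∀ (g : G₁) (a b : ℕ), 0 < a → 0 < b → g * τ₁ ^ a * g⁻¹ = τ₁ ^ b →
      ∃ m : ℤ, ∀ ω : Ω₁, g • ω = τ₁ ^ m • ω)
    (hcent₂ : ∀ (g : G₂) (a b : ℕ), 0 < a → 0 < b → g * τ₂ ^ a * g⁻¹ = τ₂ ^ b →
      ∃ m : ℤ, ∀ ω : Ω₂, g • ω = τ₂ ^ m • ω)
    (hφ : ∀ γ, ev ω₁ z₁ γ = ev ω₂ z₂ (θ γ)) (hψ : ∀ γ, ev ω₁ z₁' γ = ev ω₂ z₂' (θ γ)) :
    ∑ ω, K₁ τ₁ ω = ∑ ω, K₂ τ₂ ω := by
  obtain ⟨σ, hσ⟩ := exists_cusp_equiv' (CuspSys.ofOrbits τ₁ ω₁) (CuspSys.ofOrbits τ₂ ω₂)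
    (CuspSys.ofOrbits_w_pos τ₁ ω₁) (CuspSys.ofOrbits_w_pos τ₂ ω₂) θ hθ hcent₁ hcent₂
  exact form_comp_iso (CuspSys.ofOrbits τ₁ ω₁) hK₁ hz₁ hz₁' hτ₁ hτ₁' hgen₁
    (CuspSys.ofOrbits τ₂ ω₂) hK₂ hz₂ hz₂' hτ₂ hτ₂' θ σ hσ hφ hψ

end Fermat.Agent.S41.CuspSum22
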